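import Mathlib
import Fermat.Prelude.Def_ModularCurve_PeriodHomPair
import Fermat.Prelude.Thm_Subgroup_IsArithmetic_exists_nat_mem_strictPeriods_conj
import Fermat.Agent.S22.H68.Prim

/-!
# S21, packages A1 + A2: Eichler primitives of weight-two cusp forms

For a cusp form `f` of weight `2` on `Γ₀(N)` we construct the primitive `F` with `F' = f` which
tends to `0` at `i∞`, show that it satisfies all clauses of
`ModularCurve.HasEquivariantPrimitive`, that it is unique, and deduce that the period map is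
`ℂ`-linear (`ModularCurve.ExistsPeriodMapLinear`).
-/

set_option autoImplicit false

open UpperHalfPlane ModularForm CongruenceSubgroup Filter Topology Matrix.SpecialLinearGroup
open scoped MatrixGroups ModularForm Manifold Pointwise

namespace Fermat.Agent.S21.H99

open Fermat.Agent.S22.H68 (CuspPer IsPrim)
open ModularCurve ModularCurve.Period

/-- The determinant of the image of an element of `SL(2, ℤ)` in `GL(2, ℝ)`. -/
theorem det_mapGL_val (γ : SL(2, ℤ)) : (mapGL ℝ γ).val.det = 1 := by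
  rw [← Matrix.GeneralLinearGroup.val_det_apply, det_mapGL]
  rfl

/-- Chain rule: if `Ψ` is a primitive of `φ`, then `Ψ ∘ g` is a primitive of `φ ∣[2] g`. -/
theorem isPrim_smul {Ψ φ : ℍ → ℂ} (h : IsPrim Ψ φ) (g : SL(2, ℤ)) :
    IsPrim (fun z => Ψ (g • z)) (φ ∣[(2 : ℤ)] g) := by
  intro z
  have hdet : (mapGL ℝ g).val.det = 1 := det_mapGL_val g
  have h_smul : HasDerivAt (fun w : ℂ ↦ ((mapGL ℝ g • ofComplex w : ℍ) : ℂ))
      (1 / denom (mapGL ℝ g) z ^ 2) z := by
    have := (hasStrictDerivAt_smul (g := mapGL ℝ g) (by rw [hdet]; exact one_pos) z).hasDerivAt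
    rw [hdet] at this
    simpa using this
  have hz : ((mapGL ℝ g • ofComplex (z : ℂ) : ℍ) : ℂ) = ((g • z : ℍ) : ℂ) := by
    rw [ofComplex_apply]; rfl
  have h_F : HasDerivAt (Ψ ∘ ofComplex) (φ (g • z))
      ((fun w : ℂ ↦ ((mapGL ℝ g • ofComplex w : ℍ) : ℂ)) z) := by
    show HasDerivAt (Ψ ∘ ofComplex) (φ (g • z)) ((mapGL ℝ g • ofComplex (z : ℂ) : ℍ) : ℂ)
    rw [hz]
    exact h (g • z)
  have hcomp := HasDerivAt.comp (z : ℂ) h_F h_smul
  have hval : (φ ∣[(2 : ℤ)] g) z = φ (g • z) * (1 / denom (mapGL ℝ g) z ^ 2) := by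
    rw [SL_slash_apply, zpow_neg, one_div]
    rfl
  rw [hval]
  refine hcomp.congr_of_eventuallyEq ?_
  filter_upwards [isOpen_upperHalfPlaneSet.mem_nhds z.im_pos] with w hw
  simp only [Function.comp_apply, ofComplex_apply]
  rfl

variable {N : ℕ}

/-- Every `SL(2, ℤ)`-translate of a weight two cusp form on `Γ₀(N)` is holomorphic, periodic (with
a period independent of the translate) and zero at `i∞`. -/
theorem exists_cuspPer_slash (N : ℕ) [NeZero N] :
    ∃ M : ℕ, 0 < M ∧ ∀ (f : CuspForm (Gamma0 N) 2) (δ : SL(2, ℤ)),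
      CuspPer (M : ℝ) (⇑f ∣[(2 : ℤ)] δ) := by
  obtain ⟨M, hM, hper⟩ := Subgroup.IsArithmetic.exists_nat_mem_strictPeriods_conj
    ((Gamma0 N : Subgroup SL(2, ℤ)) : Subgroup (GL (Fin 2) ℝ))
  refine ⟨M, hM, fun f δ => ⟨?_, ?_, ?_⟩⟩
  · rw [SL_slash]
    exact (CuspFormClass.holo f).slash 2 _
  · have h1 := hper δ⁻¹
    have h2 := SlashInvariantFormClass.periodic_comp_ofComplex
      (SlashInvariantForm.translate f (mapGL ℝ δ)) (h := (M : ℝ)) (by simpa using h1)
    exact h2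
  · exact CuspFormClass.zero_at_infty_slash f δ

/-- Existence of the Eichler primitive with all the properties of
`ModularCurve.HasEquivariantPrimitive`. -/
theorem exists_hasEquivariantPrimitive (N : ℕ) [NeZero N] (f : CuspForm (Gamma0 N) 2) :
    ∃ F : ℍ → ℂ, HasEquivariantPrimitive N f F := by
  obtain ⟨M, hM, hcp⟩ := exists_cuspPer_slash N
  have hMpos : (0 : ℝ) < (M : ℝ) := by exact_mod_cast hM
  have hf1 : (⇑f ∣[(2 : ℤ)] (1 : SL(2, ℤ))) = ⇑f := SlashAction.slash_one _ _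
  have hcp1 : CuspPer (M : ℝ) ⇑f := hf1 ▸ hcp f 1
  obtain ⟨F, hF, hFprim⟩ := hcp1.exists_antideriv hMpos
  refine ⟨F, hFprim, hF.zero, ?_, ?_⟩
  · intro γ
    have hγ : (⇑f ∣[(2 : ℤ)] (γ : SL(2, ℤ))) = ⇑f := by
      have := SlashInvariantFormClass.slash_action_eq f (mapGL ℝ (γ : SL(2, ℤ)))
        ⟨γ, γ.2, rfl⟩
      rw [SL_slash]
      exact this
    have h1 : IsPrim (fun z => F ((γ : SL(2, ℤ)) • z)) ⇑f := hγ ▸ isPrim_smul hFprim γ
    obtain ⟨c, hc⟩ := h1.exists_const hFprim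
    exact ⟨c, fun z => by rw [hc z]; ring⟩
  · intro δ
    obtain ⟨G, hG, hGprim⟩ := (hcp f δ).exists_antideriv hMpos
    obtain ⟨c, hc⟩ := (isPrim_smul hFprim δ).exists_const hGprim
    refine ⟨c, ?_⟩
    have h1 : Tendsto (fun w => G w + c) atImInfty (𝓝 (0 + c)) := hG.zero.add_const c
    rw [zero_add] at h1
    refine h1.congr fun w => (hc w).symm

/-- By-product for the cusp analysis (packages A3/A4): along every `SL(2, ℤ)`-translate, a
primitive `F` of `f` is a periodic holomorphic function vanishing at `i∞` plus a constant.  The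
period `M` does not depend on the translate. -/
theorem exists_periodic_decomp (N : ℕ) [NeZero N] :
    ∃ M : ℕ, 0 < M ∧ ∀ (f : CuspForm (Gamma0 N) 2) (F : ℍ → ℂ),
      (∀ τ : ℍ, HasDerivAt (F ∘ ofComplex) (f τ) ↑τ) → ∀ δ : SL(2, ℤ),
        ∃ (G : ℍ → ℂ) (L : ℂ), CuspPer (M : ℝ) G ∧ IsPrim G (⇑f ∣[(2 : ℤ)] δ) ∧
          ∀ w : ℍ, F (δ • w) = G w + L := by
  obtain ⟨M, hM, hcp⟩ := exists_cuspPer_slash N
  have hMpos : (0 : ℝ) < (M : ℝ) := by exact_mod_cast hM
  refine ⟨M, hM, fun f F hF δ => ?_⟩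
  obtain ⟨G, hG, hGprim⟩ := (hcp f δ).exists_antideriv hMpos
  have hFprim : IsPrim F ⇑f := hF
  obtain ⟨c, hc⟩ := (isPrim_smul hFprim δ).exists_const hGprim
  exact ⟨G, c, hG, hGprim, hc⟩

/-- A primitive of a cusp form is holomorphic. -/
theorem mdifferentiable_of_hasDerivAt {φ F : ℍ → ℂ}
    (hF : ∀ τ : ℍ, HasDerivAt (F ∘ ofComplex) (φ τ) ↑τ) : MDiff F := by
  rw [UpperHalfPlane.mdifferentiable_iff]
  intro w hw
  exact (hF ⟨w, hw⟩).differentiableAt.differentiableWithinAt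

/-- Uniqueness of the Eichler primitive. -/
theorem hasEquivariantPrimitive_unique {f : CuspForm (Gamma0 N) 2} {F₁ F₂ : ℍ → ℂ}
    (h₁ : HasEquivariantPrimitive N f F₁) (h₂ : HasEquivariantPrimitive N f F₂) : F₁ = F₂ := by
  have p₁ : IsPrim F₁ ⇑f := h₁.1
  have p₂ : IsPrim F₂ ⇑f := h₂.1
  obtain ⟨c, hc⟩ := p₁.exists_const p₂
  have h3 : Tendsto (fun w => F₂ w + c) atImInfty (𝓝 (0 + c)) := h₂.2.1.add_const c
  have h4 : Tendsto (fun w => F₂ w + c) atImInfty (𝓝 0) := h₁.2.1.congr hc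
  have hc0 : 0 + c = 0 := tendsto_nhds_unique h3 h4
  funext z
  rw [hc z]
  rw [zero_add] at hc0
  rw [hc0, add_zero]

/-- The period map is computed by any Eichler primitive. -/
theorem periodMap_apply {f : CuspForm (Gamma0 N) 2} {F : ℍ → ℂ}
    (hF : HasEquivariantPrimitive N f F) (γ : Gamma0 N) :
    periodMap N f (Additive.ofMul γ)
      = F ((γ : SL(2, ℤ)) • UpperHalfPlane.I) - F UpperHalfPlane.I := by
  obtain ⟨F₀, h₀, h⟩ := periodMap_def N f hF
  rw [h, IsEquivariantPrimitive.periodHom_apply]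
  have : F₀ = F := hasEquivariantPrimitive_unique h₀ hF
  subst this
  rfl

theorem hasEquivariantPrimitive_add {f g : CuspForm (Gamma0 N) 2} {F G : ℍ → ℂ}
    (hF : HasEquivariantPrimitive N f F) (hG : HasEquivariantPrimitive N g G) :
    HasEquivariantPrimitive N (f + g) (fun z => F z + G z) := by
  refine ⟨fun τ => (hF.1 τ).add (hG.1 τ), ?_, ?_, ?_⟩
  · simpa using hF.2.1.add hG.2.1
  · intro γ
    obtain ⟨c, hc⟩ := hF.2.2.1 γ
    obtain ⟨d, hd⟩ := hG.2.2.1 γ
    exact ⟨c + d, fun z => by rw [← hc z, ← hd z]; ring⟩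
  · intro δ
    obtain ⟨L, hL⟩ := hF.2.2.2 δ
    obtain ⟨L', hL'⟩ := hG.2.2.2 δ
    exact ⟨L + L', hL.add hL'⟩

theorem hasEquivariantPrimitive_smul (a : ℂ) {f : CuspForm (Gamma0 N) 2} {F : ℍ → ℂ}
    (hF : HasEquivariantPrimitive N f F) :
    HasEquivariantPrimitive N (a • f) (fun z => a * F z) := by
  refine ⟨fun τ => (hF.1 τ).const_mul a, ?_, ?_, ?_⟩
  · simpa using hF.2.1.const_mul a
  · intro γ
    obtain ⟨c, hc⟩ := hF.2.2.1 γ
    exact ⟨a * c, fun z => by rw [← hc z]; ring⟩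
  · intro δ
    obtain ⟨L, hL⟩ := hF.2.2.2 δ
    exact ⟨a * L, hL.const_mul a⟩

/-- The period map is `ℂ`-linear. -/
theorem existsPeriodMapLinear (N : ℕ) [NeZero N] : ExistsPeriodMapLinear N := by
  refine ⟨{ toFun := periodMap N, map_add' := ?_, map_smul' := ?_ }, fun f => rfl⟩
  · intro f g
    obtain ⟨F, hF⟩ := exists_hasEquivariantPrimitive N f
    obtain ⟨G, hG⟩ := exists_hasEquivariantPrimitive N g
    refine AddMonoidHom.ext fun γ => ?_
    obtain ⟨γ, rfl⟩ := Additive.ofMul.surjective γ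
    rw [AddMonoidHom.add_apply, periodMap_apply (hasEquivariantPrimitive_add hF hG),
      periodMap_apply hF, periodMap_apply hG]
    ring
  · intro a f
    obtain ⟨F, hF⟩ := exists_hasEquivariantPrimitive N f
    refine AddMonoidHom.ext fun γ => ?_
    obtain ⟨γ, rfl⟩ := Additive.ofMul.surjective γ
    rw [RingHom.id_apply, AddMonoidHom.smul_apply, periodMap_apply (hasEquivariantPrimitive_smul a hF),
      periodMap_apply hF, smul_eq_mul]
    ring

end Fermat.Agent.S21.H99
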