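import Mathlib
import Fermat.Prelude.Def_ModularCurve_PeriodHomPair
import Fermat.Prelude.Def_ModularCurve_GenusNumerics

/-!
# S21: final assembly from the four parts

Eichler–Shimura (`periodHomPair N` is injective with range the parabolic homomorphisms) follows
from: injectivity (A4), `range ≤ parabolicHoms` (A3), the bound
`dim parabolicHoms ≤ 2 * genusFormula N` (B') and the dimension formula
`dim S₂(Γ₀(N)) = genusFormula N` (S20).
-/

set_option autoImplicit false

open CongruenceSubgroup
open scoped MatrixGroups

namespace Fermat.Agent.S21.H99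

open ModularCurve ModularCurve.Period

/-- Dimension count: an injective linear map from `V × V` whose range lies in a finite
dimensional subspace `P` with `dim P ≤ 2 * dim V` has range exactly `P`. -/
theorem range_eq_of_injective_of_finrank_le {V W : Type*} [AddCommGroup V] [Module ℂ V]
    [AddCommGroup W] [Module ℂ W] (φ : (V × V) →ₗ[ℂ] W) (P : Submodule ℂ W)
    [Module.Finite ℂ P] (hinj : Function.Injective φ) (hrange : LinearMap.range φ ≤ P)
    (hle : Module.finrank ℂ P ≤ 2 * Module.finrank ℂ V) : LinearMap.range φ = P := by
  -- `V × V` is finite dimensional, since it embeds into `P`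
  have hfinVV : Module.Finite ℂ (V × V) := by
    let ψ : (V × V) →ₗ[ℂ] P := φ.codRestrict P (fun x => hrange (LinearMap.mem_range_self φ x))
    have hψ : Function.Injective ψ := fun x y hxy => hinj (congrArg Subtype.val hxy)
    exact Module.Finite.of_injective ψ hψ
  have hfinV : Module.Finite ℂ V :=
    Module.Finite.of_injective (LinearMap.inl ℂ V V) LinearMap.inl_injective
  refine Submodule.eq_of_le_of_finrank_le hrange ?_
  rw [LinearMap.finrank_range_of_inj hinj, Module.finrank_prod]
  omega

/-- S21 from its four parts. -/
theorem eichlerShimura_of_parts (N : ℕ) [NeZero N]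
    (hinj : Function.Injective (periodHomPair N))
    (hrange : LinearMap.range (periodHomPair N) ≤ parabolicHoms ℂ (Gamma0 N) ℂ)
    (hfin : Module.Finite ℂ (parabolicHoms ℂ (Gamma0 N) ℂ))
    (hle : (Module.finrank ℂ (parabolicHoms ℂ (Gamma0 N) ℂ) : ℚ) ≤ 2 * genusFormula N)
    (hdim : (Module.finrank ℂ (CuspForm (Gamma0 N) 2) : ℚ) = genusFormula N) :
    Function.Injective (periodHomPair N) ∧
      LinearMap.range (periodHomPair N) = parabolicHoms ℂ (Gamma0 N) ℂ := by
  refine ⟨hinj, range_eq_of_injective_of_finrank_le _ _ hinj hrange ?_⟩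
  rw [← hdim] at hle
  exact_mod_cast hle

end Fermat.Agent.S21.H99
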